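import Fermat.Agent.S55.G.Rec.Spec2

/-!
# S55 / G / REC, leaf (L2) `LocalStructureSpec` (helper664): the unit ball of `ℚ̄_q`

The closed unit ball `ball q` of `PadicAlgCl q` as a subring, its prime ideal `ballIdeal q` of
elements of norm `< 1`, and the action of a subgroup `V ≤ Gal(ℚ̄_q/ℚ_q)` on it.
-/

set_option autoImplicit false
set_option linter.style.haveILetI false

noncomputable section

namespace Fermat.Agent.S55.G.Rec.L2H664

open Fermat.Agent.S55.G.Rec

variable (q : ℕ) [Fact q.Prime]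

local notation "Gq" => (PadicAlgCl q ≃ₐ[ℚ_[q]] PadicAlgCl q)

/-- the norm is Galois invariant -/
lemma norm_map (τ : Gq) (y : PadicAlgCl q) : ‖τ y‖ = ‖y‖ :=
  (spectralNorm_eq_of_equiv τ y).symm

lemma norm_add_le_max (x y : PadicAlgCl q) : ‖x + y‖ ≤ max ‖x‖ ‖y‖ :=
  IsUltrametricDist.norm_add_le_max x y

lemma norm_sub_le_max (x y : PadicAlgCl q) : ‖x - y‖ ≤ max ‖x‖ ‖y‖ := by
  rw [sub_eq_add_neg]
  have := norm_add_le_max q x (-y)
  rwa [norm_neg] at this

lemma norm_prime : ‖(q : PadicAlgCl q)‖ = (q : ℝ)⁻¹ := by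
  have h : ((q : ℚ_[q]) : PadicAlgCl q) = (q : PadicAlgCl q) := by
    exact map_natCast (algebraMap ℚ_[q] (PadicAlgCl q)) q
  rw [← h, PadicAlgCl.norm_extends, Padic.norm_p]

lemma norm_prime_lt_one : ‖(q : PadicAlgCl q)‖ < 1 := by
  rw [norm_prime]
  have : (1 : ℝ) < q := by exact_mod_cast (Fact.out : q.Prime).one_lt
  exact inv_lt_one_of_one_lt₀ this

/-- The closed unit ball of `ℚ̄_q`. -/
def ball : Subring (PadicAlgCl q) where
  carrier := {x | ‖x‖ ≤ 1}
  mul_mem' := by
    intro a b ha hb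
    simp only [Set.mem_ofPred_eq] at *
    rw [norm_mul]
    exact mul_le_one₀ ha (norm_nonneg _) hb
  one_mem' := by simp
  add_mem' := by
    intro a b ha hb
    simp only [Set.mem_ofPred_eq] at *
    exact (norm_add_le_max q a b).trans (max_le ha hb)
  zero_mem' := by simp
  neg_mem' := by
    intro a ha
    simp only [Set.mem_ofPred_eq] at *
    rwa [norm_neg]

variable {q} in
lemma mem_ball {x : PadicAlgCl q} : x ∈ ball q ↔ ‖x‖ ≤ 1 := Iff.rfl

/-- The ideal of elements of norm `< 1`. -/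
def ballIdeal : Ideal (ball q) where
  carrier := {x | ‖(x : PadicAlgCl q)‖ < 1}
  add_mem' := by
    intro a b ha hb
    simp only [Set.mem_ofPred_eq] at *
    exact (norm_add_le_max q a b).trans_lt (max_lt ha hb)
  zero_mem' := by simp
  smul_mem' := by
    intro c x hx
    simp only [Set.mem_ofPred_eq, smul_eq_mul, Subring.coe_mul, norm_mul] at *
    calc ‖(c : PadicAlgCl q)‖ * ‖(x : PadicAlgCl q)‖ ≤ 1 * ‖(x : PadicAlgCl q)‖ :=
          mul_le_mul_of_nonneg_right c.2 (norm_nonneg _)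
      _ < 1 := by rwa [one_mul]

variable {q} in
lemma mem_ballIdeal {x : ball q} : x ∈ ballIdeal q ↔ ‖(x : PadicAlgCl q)‖ < 1 := Iff.rfl

instance ballIdeal_isPrime : (ballIdeal q).IsPrime := by
  refine ⟨?_, ?_⟩
  · intro h
    have : (1 : ball q) ∈ ballIdeal q := h ▸ Submodule.mem_top
    rw [mem_ballIdeal] at this
    simp at this
  · intro x y hxy
    rw [mem_ballIdeal] at hxy ⊢
    rw [mem_ballIdeal]
    by_contra hcon
    push Not at hcon
    have hx : ‖(x : PadicAlgCl q)‖ = 1 := le_antisymm x.2 hcon.1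
    have hy : ‖(y : PadicAlgCl q)‖ = 1 := le_antisymm y.2 hcon.2
    rw [Subring.coe_mul, norm_mul, hx, hy] at hxy
    simp at hxy

lemma natCast_mem_ballIdeal : ((q : ℕ) : ball q) ∈ ballIdeal q := by
  rw [mem_ballIdeal]
  have : (((q : ℕ) : ball q) : PadicAlgCl q) = (q : PadicAlgCl q) := by simp
  rw [this]
  exact norm_prime_lt_one q

end Fermat.Agent.S55.G.Rec.L2H664
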