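import Fermat.Agent.S55.G.Rec.L2H664.Ball

/-!
# S55 / G / REC, leaf (L2) `LocalStructureSpec` (helper664): Frobenius elements

For a closed subgroup `V ≤ Gal(ℚ̄_q/ℚ_q)` and `f` such that `x ^ (q ^ f) ≡ x` modulo the maximal
ideal for all integral `x` of the fixed field of `V`, there is `φ ∈ V` acting on the residue field
of `ℚ̄_q` by `x ↦ x ^ (q ^ f)` (`frob_exists`).  Proof: Mathlib's
`Ideal.Quotient.stabilizerHom_surjective_of_profinite` for the action of the profinite group `V`
on the unit ball of `ℚ̄_q`.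
-/

set_option autoImplicit false
set_option linter.style.haveILetI false

noncomputable section

namespace Fermat.Agent.S55.G.Rec.L2H664

open Fermat.Agent.S55.G.Rec

open scoped Pointwise

variable (q : ℕ) [Fact q.Prime]

local notation "Gq" => (PadicAlgCl q ≃ₐ[ℚ_[q]] PadicAlgCl q)

/-- The action of a subgroup `V` of the Galois group on the unit ball. -/
@[reducible] def ballAction (V : Subgroup Gq) : MulSemiringAction ↥V (ball q) where
  smul g x := ⟨(g : Gq) (x : PadicAlgCl q), by
    rw [mem_ball, norm_map]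
    exact x.2⟩
  one_smul _ := Subtype.ext rfl
  mul_smul _ _ _ := Subtype.ext rfl
  smul_zero g := Subtype.ext (map_zero (g : Gq))
  smul_add g x y := Subtype.ext (map_add (g : Gq) _ _)
  smul_one g := Subtype.ext (map_one (g : Gq))
  smul_mul g x y := Subtype.ext (map_mul (g : Gq) _ _)

lemma ballAction_coe (V : Subgroup Gq) (g : ↥V) (x : ball q) :
    letI := ballAction q V
    ((g • x : ball q) : PadicAlgCl q) = (g : Gq) (x : PadicAlgCl q) := rfl

/-- The action of `V` on the discrete unit ball is continuous. -/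
theorem continuousSMul_ball (V : Subgroup Gq) :
    letI := ballAction q V
    letI : TopologicalSpace (ball q) := ⊥
    ContinuousSMul ↥V (ball q) := by
  letI := ballAction q V
  letI : TopologicalSpace (ball q) := ⊥
  haveI : DiscreteTopology (ball q) := ⟨rfl⟩
  refine ⟨?_⟩
  rw [continuous_prod_of_discrete_right]
  intro b
  rw [continuous_discrete_rng]
  intro c
  rw [isOpen_iff_mem_nhds]
  intro g hg
  let E : IntermediateField ℚ_[q] (PadicAlgCl q) :=
    IntermediateField.adjoin ℚ_[q] {(b : PadicAlgCl q)}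
  haveI : FiniteDimensional ℚ_[q] E :=
    IntermediateField.adjoin.finiteDimensional (Algebra.IsIntegral.isIntegral _)
  have hopen : IsOpen ((fun h : ↥V => ((g : Gq)⁻¹ * (h : Gq))) ⁻¹'
      (E.fixingSubgroup : Set Gq)) := by
    refine (E.fixingSubgroup_isOpen).preimage ?_
    exact continuous_const.mul continuous_subtype_val
  refine Filter.mem_of_superset (hopen.mem_nhds (by simp)) ?_
  intro h hh
  simp only [Set.mem_preimage, Set.mem_singleton_iff, SetLike.mem_coe] at hg hh ⊢
  rw [← hg]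
  apply Subtype.ext
  have hb : ((g : Gq)⁻¹ * (h : Gq)) (b : PadicAlgCl q) = b :=
    (IntermediateField.mem_fixingSubgroup_iff E _).mp hh b
      (IntermediateField.subset_adjoin ℚ_[q] _ (Set.mem_singleton _))
  show (h : Gq) (b : PadicAlgCl q) = (g : Gq) (b : PadicAlgCl q)
  have h2 := congrArg (g : Gq) hb
  rw [AlgEquiv.mul_apply] at h2
  have h3 : (g : Gq) (((g : Gq)⁻¹) ((h : Gq) (b : PadicAlgCl q))) = (h : Gq) b :=
    AlgEquiv.apply_symm_apply (g : Gq) _
  rw [h3] at h2
  exact h2

/-- **Frobenius lifts.** -/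
theorem frob_exists (V : Subgroup Gq) (hV : IsClosed (V : Set Gq)) (f : ℕ)
    (hf : ∀ x, IsFixedBy q V x → ‖x‖ ≤ 1 → ‖x ^ (q ^ f) - x‖ < 1) :
    ∃ φ ∈ V, ∀ x : PadicAlgCl q, ‖x‖ ≤ 1 → ‖φ x - x ^ (q ^ f)‖ < 1 := by
  letI := ballAction q V
  letI : TopologicalSpace (ball q) := ⊥
  haveI : DiscreteTopology (ball q) := ⟨rfl⟩
  haveI := continuousSMul_ball q V
  haveI : CompactSpace ↥V := isCompact_iff_compactSpace.mp hV.isCompact
  have hq : q.Prime := Fact.out
  -- the base ring: the fixed points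
  let A : Subring (ball q) := FixedPoints.subring (ball q) ↥V
  haveI : Algebra.IsInvariant A (ball q) ↥V := ⟨fun b hb => ⟨⟨b, hb⟩, rfl⟩⟩
  let Q : Ideal (ball q) := ballIdeal q
  let P : Ideal A := Q.under A
  haveI hlies : Q.LiesOver P := ⟨rfl⟩
  -- characteristic of the quotient
  haveI : IsDomain (ball q ⧸ Q) := Ideal.Quotient.isDomain Q
  have hzero : ((q : ℕ) : ball q ⧸ Q) = 0 := by
    have : (Ideal.Quotient.mk Q) ((q : ℕ) : ball q) = 0 :=
      Ideal.Quotient.eq_zero_iff_mem.mpr (natCast_mem_ballIdeal q)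
    simpa using this
  haveI hchar : CharP (ball q ⧸ Q) q := (CharP.charP_iff_prime_eq_zero hq).mpr hzero
  haveI : ExpChar (ball q ⧸ Q) q := ExpChar.prime hq
  -- the Frobenius as an algebra automorphism
  let F : (ball q ⧸ Q) →ₐ[A ⧸ P] (ball q ⧸ Q) :=
    { toRingHom := iterateFrobenius (ball q ⧸ Q) q f
      commutes' := by
        intro y
        obtain ⟨a, rfl⟩ := Ideal.Quotient.mk_surjective y
        show iterateFrobenius (ball q ⧸ Q) q f (Ideal.Quotient.mk Q (a : ball q)) =
          Ideal.Quotient.mk Q (a : ball q)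
        rw [iterateFrobenius_def, ← map_pow, Ideal.Quotient.eq, mem_ballIdeal]
        have hfix : IsFixedBy q V ((a : ball q) : PadicAlgCl q) := by
          intro τ hτ
          have := congrArg (fun z : ball q => (z : PadicAlgCl q)) (a.2 ⟨τ, hτ⟩)
          exact this
        exact hf _ hfix (a : ball q).2 }
  have hinj : Function.Injective F := iterateFrobenius_inj _ q f
  have hsurj : Function.Surjective F := by
    intro y
    obtain ⟨b, rfl⟩ := Ideal.Quotient.mk_surjective y
    obtain ⟨c, hc⟩ := IsAlgClosed.exists_pow_nat_eq (b : PadicAlgCl q)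
      (pow_pos hq.pos f : 0 < q ^ f)
    have hcball : c ∈ ball q := by
      rw [mem_ball]
      have hb : ‖c‖ ^ (q ^ f) ≤ 1 := by
        rw [← norm_pow, hc]
        exact b.2
      by_contra hcon
      push Not at hcon
      exact absurd hb (not_le.mpr (one_lt_pow₀ hcon (pow_pos hq.pos f).ne'))
    refine ⟨Ideal.Quotient.mk Q ⟨c, hcball⟩, ?_⟩
    show iterateFrobenius (ball q ⧸ Q) q f (Ideal.Quotient.mk Q ⟨c, hcball⟩) = _
    rw [iterateFrobenius_def, ← map_pow]
    congr 1
    exact Subtype.ext hc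
  let e : (ball q ⧸ Q) ≃ₐ[A ⧸ P] (ball q ⧸ Q) := AlgEquiv.ofBijective F ⟨hinj, hsurj⟩
  obtain ⟨σ, hσ⟩ := Ideal.Quotient.stabilizerHom_surjective_of_profinite (G := ↥V) P Q e
  refine ⟨((σ : ↥V) : Gq), (σ : ↥V).2, fun x hx => ?_⟩
  have h2 := congrArg (fun t => t (Ideal.Quotient.mk Q ⟨x, hx⟩)) hσ
  simp only [Ideal.Quotient.stabilizerHom_apply] at h2
  have h3 : e (Ideal.Quotient.mk Q ⟨x, hx⟩) = Ideal.Quotient.mk Q (⟨x, hx⟩ ^ (q ^ f)) := by
    show iterateFrobenius (ball q ⧸ Q) q f (Ideal.Quotient.mk Q ⟨x, hx⟩) = _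
    rw [iterateFrobenius_def, map_pow]
  rw [h3, Ideal.Quotient.eq, mem_ballIdeal] at h2
  exact h2

end Fermat.Agent.S55.G.Rec.L2H664
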