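import Fermat.Agent.S55.G.Rec.L2H664.Struct
import Fermat.Agent.S55.G.Rec.L2H664.Frob
import Fermat.Agent.S55.G.Rec.Loc.OpenH478

/-!
# S55 / G / REC, leaf (L2) (helper664): `localStructure : LocalStructureSpec`

For an open subgroup `V ≤ Gal(ℚ̄_q/ℚ_q)` with fixed field `K`: residue degree `g`, a Frobenius
element `φ ∈ V`, a uniformizer `π` with `vdeg π = g`, and the decomposition `a = π ^ k * u`.

* arithmetic of `K` : `local_structure` (Struct.lean) for `A = ℤ_[q]`, `F = ℚ_[q]`, `L = K` and the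
  valuation induced by the norm of `PadicAlgCl q`;
* Frobenius : `frob_exists` (Frob.lean);
* `[G_{ℚ_q} : V] = [K : ℚ_q]` : Mathlib `IntermediateField.finrank_eq_fixingSubgroup_index` and
  `OpenSpec` (helper478).
-/

set_option autoImplicit false
set_option linter.unusedSectionVars false
set_option linter.style.haveILetI false

noncomputable section

namespace Fermat.Agent.S55.G.Rec.L2H664

open IsLocalRing Module Fermat.Agent.S55.Local Fermat.Agent.S55.G.Rec

open scoped NNReal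

variable (q : ℕ) [Fact q.Prime]

local notation "Gq" => (PadicAlgCl q ≃ₐ[ℚ_[q]] PadicAlgCl q)

/-- The valuation on an intermediate field induced by the norm of `PadicAlgCl q`. -/
def valK (K : IntermediateField ℚ_[q] (PadicAlgCl q)) : Valuation K ℝ≥0 :=
  (Valued.v : Valuation (PadicAlgCl q) ℝ≥0).comap (algebraMap K (PadicAlgCl q))

lemma valK_coe (K : IntermediateField ℚ_[q] (PadicAlgCl q)) (x : K) :
    ((valK q K x : ℝ≥0) : ℝ) = ‖(x : PadicAlgCl q)‖ := rfl

lemma valK_le_one_iff (K : IntermediateField ℚ_[q] (PadicAlgCl q)) (x : K) :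
    valK q K x ≤ 1 ↔ ‖(x : PadicAlgCl q)‖ ≤ 1 := by
  rw [← valK_coe, ← NNReal.coe_one, NNReal.coe_le_coe]

lemma valK_lt_one_iff (K : IntermediateField ℚ_[q] (PadicAlgCl q)) (x : K) :
    valK q K x < 1 ↔ ‖(x : PadicAlgCl q)‖ < 1 := by
  rw [← valK_coe, ← NNReal.coe_one, NNReal.coe_lt_coe]

lemma card_residueField_padicInt : Nat.card (ResidueField ℤ_[q]) = q := by
  rw [Nat.card_congr (PadicInt.residueField (p := q)).toEquiv, Nat.card_zmod]

lemma lFixed_iff (V : Subgroup Gq) (a : (PadicAlgCl q)ˣ) :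
    LFixed q V a ↔ IsFixedBy q V (a : PadicAlgCl q) := by
  constructor
  · intro h τ hτ
    exact congrArg (fun u : (PadicAlgCl q)ˣ => (u : PadicAlgCl q)) (h τ hτ)
  · intro h τ hτ
    exact Units.ext (h τ hτ)

/-- **Leaf (L2)**. -/
theorem localStructure : LocalStructureSpec := by
  intro q _ V hV
  have hqp : q.Prime := Fact.out
  have hq1 : 1 < q := hqp.one_lt
  have hqR : (1 : ℝ) < q := by exact_mod_cast hq1
  obtain ⟨hfin, hfix⟩ := Loc.H478.openSpec q V hV
  -- `V` is closed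
  have hclosed : IsClosed (V : Set (PadicAlgCl q ≃ₐ[ℚ_[q]] PadicAlgCl q)) := by
    obtain ⟨E, hE, hEV⟩ := hV
    haveI : FiniteDimensional ℚ_[q] E := hE
    exact Subgroup.isClosed_of_isOpen V
      (Subgroup.isOpen_mono hEV (IntermediateField.fixingSubgroup_isOpen E))
  set K : IntermediateField ℚ_[q] (PadicAlgCl q) := Loc.fixedFld q V with hK
  haveI : FiniteDimensional ℚ_[q] K := hfin
  have hmemK : ∀ x : PadicAlgCl q, x ∈ K ↔ IsFixedBy q V x := fun x =>
    IntermediateField.mem_fixedField_iff V x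
  have hindex : V.index = finrank ℚ_[q] K := by
    rw [IntermediateField.finrank_eq_fixingSubgroup_index (PadicAlgCl q) K, hfix]
  letI : Algebra ℤ_[q] K := H715.algAL ℤ_[q] ℚ_[q] K
  haveI := H715.isScalarTower_algAL ℤ_[q] ℚ_[q] K
  have halg : ∀ a : ℤ_[q], ((algebraMap ℤ_[q] K a : K) : PadicAlgCl q) =
      algebraMap ℚ_[q] (PadicAlgCl q) (a : ℚ_[q]) := fun a => rfl
  have hA : ∀ a : ℤ_[q], valK q K (algebraMap ℤ_[q] K a) ≤ 1 := by
    intro a
    rw [valK_le_one_iff, halg, PadicAlgCl.norm_extends]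
    exact PadicInt.norm_le_one a
  have hnormq : ‖((algebraMap ℤ_[q] K (q : ℤ_[q]) : K) : PadicAlgCl q)‖ = (q : ℝ)⁻¹ := by
    rw [halg, PadicAlgCl.norm_extends]
    simp
  have hvϖ : valK q K (algebraMap ℤ_[q] K (q : ℤ_[q])) < 1 := by
    rw [valK_lt_one_iff, hnormq]
    exact inv_lt_one_of_one_lt₀ hqR
  obtain ⟨g, π, hg0, hres, hmin, hπ0, hπ1, hπmax, hπn, hdec⟩ :=
    local_structure ℤ_[q] ℚ_[q] K (valK q K) hA (q : ℤ_[q]) PadicInt.irreducible_p hvϖ
  rw [card_residueField_padicInt] at hres hmin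
  -- norms
  have hπ0' : (π : PadicAlgCl q) ≠ 0 := by
    intro h
    exact hπ0 (Subtype.ext h)
  have hπnorm : ‖(π : PadicAlgCl q)‖ ^ V.index = (q : ℝ) ^ (-(g : ℤ)) := by
    have h1 := congrArg (fun z : ℝ≥0 => (z : ℝ)) hπn
    simp only [NNReal.coe_pow, valK_coe] at h1
    rw [hindex, h1, hnormq, zpow_neg, zpow_natCast, inv_pow]
  -- the residue degree
  have hresdeg : IsResidueDegree q V g := by
    refine ⟨hg0, fun x hx hx1 => ?_, fun m hm h => ?_⟩
    · have := hres ⟨x, (hmemK x).mpr hx⟩ ((valK_le_one_iff q K _).mpr hx1)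
      rw [valK_lt_one_iff] at this
      exact this
    · have hM : 1 < q ^ m := Nat.one_lt_pow hm.ne' hq1
      have := hmin (q ^ m) hM (fun x hx => by
        rw [valK_lt_one_iff]
        exact h (x : PadicAlgCl q) ((hmemK _).mp x.2) ((valK_le_one_iff q K x).mp hx))
      exact (Nat.pow_le_pow_iff_right hq1).mp this
  -- Frobenius
  obtain ⟨φ, hφV, hφ⟩ := frob_exists q V hclosed g hresdeg.2.1
  refine ⟨g, φ, Units.mk0 (π : PadicAlgCl q) hπ0', hresdeg, hφV, hφ, ?_, ?_, ?_⟩
  · -- uniformizer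
    refine ⟨(hmemK _).mp π.2, hπ0', (valK_lt_one_iff q K π).mp hπ1, fun x hx hx1 => ?_⟩
    have := hπmax ⟨x, (hmemK x).mpr hx⟩ ((valK_lt_one_iff q K _).mpr hx1)
    have h2 := NNReal.coe_le_coe.mpr this
    rw [valK_coe, valK_coe] at h2
    exact h2
  · -- `vdeg π = g`
    unfold vdeg
    rw [Units.val_mk0, hπnorm, Int.log_zpow hq1, neg_neg]
  · -- decomposition
    intro a ha
    have haK : (a : PadicAlgCl q) ∈ K := (hmemK _).mpr ((lFixed_iff q V a).mp ha)
    have ha0 : (⟨(a : PadicAlgCl q), haK⟩ : K) ≠ 0 := by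
      intro h
      exact a.ne_zero (congrArg Subtype.val h)
    obtain ⟨k, u, hu1, hau⟩ := hdec ⟨(a : PadicAlgCl q), haK⟩ ha0
    have hunorm : ‖(u : PadicAlgCl q)‖ = 1 := by
      have := congrArg (fun z : ℝ≥0 => (z : ℝ)) hu1
      simpa only [valK_coe, NNReal.coe_one] using this
    have hu0 : (u : PadicAlgCl q) ≠ 0 := by
      intro h
      rw [h, norm_zero] at hunorm
      exact zero_ne_one hunorm
    have hau' : (a : PadicAlgCl q) = (π : PadicAlgCl q) ^ k * (u : PadicAlgCl q) := by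
      have := congrArg (algebraMap K (PadicAlgCl q)) hau
      rw [map_mul, map_zpow₀] at this
      exact this
    refine ⟨k, Units.mk0 (u : PadicAlgCl q) hu0, ?_, hunorm, ?_, ?_⟩
    · rw [lFixed_iff]
      exact (hmemK _).mp u.2
    · apply Units.ext
      rw [Units.val_mul, Units.val_zpow_eq_zpow_val, Units.val_mk0, Units.val_mk0]
      exact hau'
    · unfold vdeg
      have h1 : ‖(a : PadicAlgCl q)‖ ^ V.index = (q : ℝ) ^ (-((g : ℤ) * k)) := by
        rw [hau', norm_mul, norm_zpow, hunorm, mul_one, ← zpow_natCast, ← zpow_mul,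
          mul_comm k, zpow_mul, zpow_natCast, hπnorm, ← zpow_mul, neg_mul]
      rw [h1, Int.log_zpow hq1, neg_neg]

end Fermat.Agent.S55.G.Rec.L2H664
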