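import Fermat.Agent.S55.G.Rec.L2H664.Val

/-!
# S55 / G / REC, leaf (L2) `LocalStructureSpec` (helper664): abstract structure theorem

`A` a complete discrete valuation ring with finite residue field of cardinality `Q`, uniformizer
`ϖA`, `F = Frac A` of characteristic zero, `L / F` finite of degree `n`, `v` a valuation on `L`
which is `≤ 1` on `A` and `< 1` at `ϖA`.  Then there are `g ≥ 1` and `π : L` with

* `x ^ (Q ^ g) ≡ x` for all `x` in the unit ball, and `Q ^ g` is the least such exponent `> 1`;
* `π` has the largest valuation `< 1`, and `v π ^ n = v ϖA ^ g`;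
* every `x ≠ 0` is `π ^ k * u` with `v u = 1`.
-/

set_option autoImplicit false
set_option linter.unusedSectionVars false
set_option linter.style.haveILetI false

namespace Fermat.Agent.S55.G.Rec.L2H664

open IsLocalRing Polynomial Module Fermat.Agent.S55.Local

open scoped NNReal

section Struct

variable (A F : Type) [CommRing A] [IsDomain A] [IsDiscreteValuationRing A]
  [IsAdicComplete (maximalIdeal A) A] [Finite (ResidueField A)]
  [Field F] [CharZero F] [Algebra A F] [IsFractionRing A F]
  (L : Type) [Field L] [Algebra F L] [FiniteDimensional F L]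
  [Algebra A L] [IsScalarTower A F L]

theorem local_structure (v : Valuation L ℝ≥0) (hA : ∀ a : A, v (algebraMap A L a) ≤ 1)
    (ϖA : A) (hϖA : Irreducible ϖA) (hvϖ : v (algebraMap A L ϖA) < 1) :
    ∃ (g : ℕ) (π : L), 0 < g ∧
      (∀ x : L, v x ≤ 1 → v (x ^ (Nat.card (ResidueField A) ^ g) - x) < 1) ∧
      (∀ M : ℕ, 1 < M → (∀ x : L, v x ≤ 1 → v (x ^ M - x) < 1) →
        Nat.card (ResidueField A) ^ g ≤ M) ∧
      π ≠ 0 ∧ v π < 1 ∧ (∀ x : L, v x < 1 → v x ≤ v π) ∧
      v π ^ finrank F L = v (algebraMap A L ϖA) ^ g ∧
      ∀ x : L, x ≠ 0 → ∃ (k : ℤ) (u : L), v u = 1 ∧ x = π ^ k * u := by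
  haveI := H715.isLocalRing_OL A F L
  haveI := H715.isDiscreteValuationRing_OL A F L
  haveI := H715.finite_OL A F L
  haveI := H715.isFractionRing_OL A F L
  haveI := H715.isLocalHom_OL A F L
  haveI := H715.finite_residueField_OL A F L
  haveI : Module.IsTorsionFree A (integralClosure A L) :=
    Module.isTorsionFree_iff_algebraMap_injective.mpr (H715.algebraMap_injective_OL A F L)
  -- the ring of integers lies in the unit ball
  have hC : ∀ c : integralClosure A L, v (algebraMap (integralClosure A L) L c) ≤ 1 :=
    fun c => val_le_one_of_isIntegral v hA c.2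
  -- the image of the uniformizer of `A`
  set t : integralClosure A L := algebraMap A (integralClosure A L) ϖA with ht
  have ht0 : t ≠ 0 := by
    rw [ht, Ne, map_eq_zero_iff _ (H715.algebraMap_injective_OL A F L)]
    exact hϖA.ne_zero
  have htL : algebraMap (integralClosure A L) L t = algebraMap A L ϖA := by
    rw [ht, ← IsScalarTower.algebraMap_apply]
  have htv : v (algebraMap (integralClosure A L) L t) < 1 := by rw [htL]; exact hvϖ
  -- a uniformizer
  obtain ⟨ϖ, hϖ⟩ := IsDiscreteValuationRing.exists_irreducible (integralClosure A L)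
  obtain ⟨e, u, hte⟩ := IsDiscreteValuationRing.eq_unit_mul_pow_irreducible ht0 hϖ
  have hmax : (maximalIdeal A).map (algebraMap A (integralClosure A L)) =
      maximalIdeal (integralClosure A L) ^ e := by
    rw [hϖA.maximalIdeal_eq, Ideal.map_span, Set.image_singleton, hϖ.maximalIdeal_eq,
      Ideal.span_singleton_pow, ← ht, hte]
    exact Ideal.span_singleton_eq_span_singleton.mpr
      ((associated_unit_mul_left _ _ u.isUnit))
  -- the residue degree
  set g : ℕ := finrank (ResidueField A) (ResidueField (integralClosure A L)) with hg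
  have hcard : Nat.card (ResidueField (integralClosure A L)) = Nat.card (ResidueField A) ^ g :=
    Module.natCard_eq_pow_finrank
  have heg : e * g = finrank F L :=
    ramification_mul_inertia A F (integralClosure A L) L e g hmax hcard
  have hn : 0 < finrank F L := Module.finrank_pos
  have hg0 : 0 < g := by
    rcases Nat.eq_zero_or_pos g with h | h
    · rw [h, mul_zero] at heg
      omega
    · exact h
  have hvπ : v (algebraMap (integralClosure A L) L ϖ) < 1 :=
    val_lt_one_of_mem_maximalIdeal v hC ht0 htv
      (by rw [hϖ.maximalIdeal_eq]; exact Ideal.mem_span_singleton_self ϖ)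
  have hϖ0 : algebraMap (integralClosure A L) L ϖ ≠ 0 := by
    rw [Ne, map_eq_zero_iff _ (IsFractionRing.injective (integralClosure A L) L)]
    exact hϖ.ne_zero
  refine ⟨g, algebraMap (integralClosure A L) L ϖ, hg0, ?_, ?_, hϖ0, hvπ, ?_, ?_, ?_⟩
  · -- `x ^ (Q ^ g) ≡ x`
    intro x hx
    obtain ⟨c, rfl⟩ := exists_of_val_le_one v hC ht0 htv hx
    rw [← map_pow, ← map_sub]
    refine val_lt_one_of_mem_maximalIdeal v hC ht0 htv ?_
    rw [← residue_eq_zero_iff, map_sub, map_pow, ← hcard,
      pow_natCard_eq (ResidueField (integralClosure A L)), sub_self]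
  · -- minimality
    intro M hM h
    rw [← hcard]
    refine card_le_of_forall_pow_eq (ResidueField (integralClosure A L)) hM fun r => ?_
    obtain ⟨c, rfl⟩ := residue_surjective r
    have h1 := h (algebraMap (integralClosure A L) L c) (hC c)
    rw [← map_pow, ← map_sub] at h1
    obtain ⟨d, hd, hdc⟩ := exists_mem_maximalIdeal_of_val_lt_one v hC ht0 htv h1
    have hdc' : d = c ^ M - c := IsFractionRing.injective (integralClosure A L) L hdc
    rw [hdc'] at hd
    rw [← residue_eq_zero_iff, map_sub, map_pow, sub_eq_zero] at hd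
    exact hd
  · intro x hx
    exact val_le_val_irreducible v hC ht0 htv hϖ hx
  · -- `v π ^ n = v ϖA ^ g`
    rw [← heg, pow_mul, ← htL, hte, map_mul, map_pow, map_mul, map_pow,
      val_unit_eq_one v hC u, one_mul]
  · intro x hx
    obtain ⟨k, w, rfl⟩ := exists_zpow_mul_unit (C := integralClosure A L) hϖ hx
    exact ⟨k, _, val_unit_eq_one v hC w, rfl⟩

end Struct

end Fermat.Agent.S55.G.Rec.L2H664
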