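import Fermat.Agent.S55.Local.H664.Core
import Fermat.Agent.S55.Local.H715.Integers

/-!
# S55 / G / REC, leaf (L2) `LocalStructureSpec` (helper664): valuations on a local field

Abstract setting: `A` a complete discrete valuation ring with finite residue field, `F = Frac A` of
characteristic zero, `L / F` finite, and a valuation `v : Valuation L ℝ≥0` which is `≤ 1` on `A`
and `< 1` on the maximal ideal of `A`.  Then

* `v x ≤ 1 ↔ IsIntegral A x` (`val_le_one_iff`), `v x < 1 ↔ x` is in the maximal ideal of the ring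
  of integers;
* a uniformizer `π` of the ring of integers has the largest valuation `< 1` and every `x ≠ 0` is
  `π ^ k * u` with `v u = 1`;
* `e * g = [L : F]` in the form `v π ^ [L : F] = v ϖ_A ^ g`, where `#k_L = #k_A ^ g`.
-/

set_option autoImplicit false
set_option linter.unusedSectionVars false
set_option linter.style.haveILetI false

namespace Fermat.Agent.S55.G.Rec.L2H664

open IsLocalRing Polynomial Module

open scoped NNReal

section Integral

variable {A L : Type} [CommRing A] [Field L] [Algebra A L]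
  (v : Valuation L ℝ≥0) (hA : ∀ a : A, v (algebraMap A L a) ≤ 1)

include hA in
/-- Integral elements have valuation `≤ 1`. -/
theorem val_le_one_of_isIntegral {x : L} (hx : IsIntegral A x) : v x ≤ 1 := by
  obtain ⟨f, hm, hf⟩ := hx
  by_cases hn : f.natDegree = 0
  · rw [Polynomial.natDegree_eq_zero] at hn
    obtain ⟨c, rfl⟩ := hn
    have hc : c = 1 := by
      have := hm.leadingCoeff
      simpa using this
    subst hc
    simp at hf
  simp only [Polynomial.eval₂_eq_sum_range, Finset.sum_range_succ, hm.coeff_natDegree, map_one,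
    one_mul, add_eq_zero_iff_eq_neg] at hf
  apply_fun v at hf
  rw [Valuation.map_neg, Valuation.map_pow] at hf
  contrapose! hf
  refine ne_of_lt (v.map_sum_lt ?_ ?_)
  · simp [hn, (hf.trans' (zero_lt_one)).ne']
  · simp only [Finset.mem_range, map_mul, map_pow]
    intro _ hi
    exact mul_lt_of_le_one_of_lt (hA _) <| pow_lt_pow_right₀ hf hi

end Integral

section DVR

/-! ### A discrete valuation ring `C` with fraction field `L`, inside the unit ball of `v` -/

variable {C L : Type} [CommRing C] [IsDomain C] [IsDiscreteValuationRing C]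
  [Field L] [Algebra C L] [IsFractionRing C L]
  (v : Valuation L ℝ≥0) (hC : ∀ c : C, v (algebraMap C L c) ≤ 1)

include hC in
theorem val_unit_eq_one (u : Cˣ) : v (algebraMap C L u) = 1 := by
  refine le_antisymm (hC _) ?_
  have h1 : algebraMap C L u * algebraMap C L ((u⁻¹ : Cˣ) : C) = 1 := by
    rw [← map_mul, Units.mul_inv, map_one]
  have h2 := congrArg v h1
  rw [map_mul, map_one] at h2
  by_contra hlt
  push Not at hlt
  have h3 : v (algebraMap C L u) * v (algebraMap C L ((u⁻¹ : Cˣ) : C)) < 1 :=
    mul_lt_one_of_nonneg_of_lt_one_left zero_le hlt (hC _)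
  rw [h2] at h3
  exact lt_irrefl _ h3

include hC in
/-- If some nonzero element of the maximal ideal has valuation `< 1`, all of them do. -/
theorem val_lt_one_of_mem_maximalIdeal {t : C} (ht0 : t ≠ 0)
    (ht : v (algebraMap C L t) < 1) {y : C} (hy : y ∈ maximalIdeal C) :
    v (algebraMap C L y) < 1 := by
  obtain ⟨ϖ, hϖ⟩ := IsDiscreteValuationRing.exists_irreducible C
  obtain ⟨e, u, rfl⟩ := IsDiscreteValuationRing.eq_unit_mul_pow_irreducible ht0 hϖ
  rw [hϖ.maximalIdeal_eq, Ideal.mem_span_singleton'] at hy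
  obtain ⟨z, rfl⟩ := hy
  have hϖ1 : v (algebraMap C L ϖ) < 1 := by
    by_contra hcon
    push Not at hcon
    have h1 : v (algebraMap C L ϖ) = 1 := le_antisymm (hC _) hcon
    rw [map_mul, map_mul, map_pow, map_pow, h1, one_pow, mul_one,
      val_unit_eq_one v hC u] at ht
    exact lt_irrefl _ ht
  rw [map_mul, map_mul]
  exact mul_lt_one_of_nonneg_of_lt_one_right (hC z) zero_le hϖ1

include hC in
/-- If the maximal ideal has valuation `< 1`, then the unit ball is exactly `C`. -/
theorem exists_of_val_le_one {t : C} (ht0 : t ≠ 0)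
    (ht : v (algebraMap C L t) < 1) {x : L} (hx : v x ≤ 1) :
    ∃ c : C, algebraMap C L c = x := by
  rcases ValuationRing.isInteger_or_isInteger C x with ⟨c, hc⟩ | ⟨c, hc⟩
  · exact ⟨c, hc⟩
  · by_cases hx0 : x = 0
    · exact ⟨0, by rw [map_zero, hx0]⟩
    by_cases hcu : IsUnit c
    · obtain ⟨u, rfl⟩ := hcu
      refine ⟨((u⁻¹ : Cˣ) : C), ?_⟩
      have h1 : algebraMap C L u * algebraMap C L ((u⁻¹ : Cˣ) : C) = 1 := by
        rw [← map_mul, Units.mul_inv, map_one]
      rw [hc] at h1
      exact (eq_inv_of_mul_eq_one_right h1).trans (inv_inv x)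
    · have hcm : c ∈ maximalIdeal C := (mem_maximalIdeal c).mpr hcu
      have h1 := val_lt_one_of_mem_maximalIdeal v hC ht0 ht hcm
      rw [hc, map_inv₀] at h1
      exfalso
      have hvx : v x ≠ 0 := (Valuation.ne_zero_iff v).mpr hx0
      have h2 : 1 < v x := by
        by_contra hcon
        push Not at hcon
        have : 1 ≤ (v x)⁻¹ := (one_le_inv₀ (lt_of_le_of_ne zero_le hvx.symm)).mpr hcon
        exact absurd h1 (not_lt.mpr this)
      exact absurd hx (not_le.mpr h2)

include hC in
/-- elements of valuation `< 1` come from the maximal ideal. -/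
theorem exists_mem_maximalIdeal_of_val_lt_one {t : C} (ht0 : t ≠ 0)
    (ht : v (algebraMap C L t) < 1) {x : L} (hx : v x < 1) :
    ∃ c ∈ maximalIdeal C, algebraMap C L c = x := by
  obtain ⟨c, rfl⟩ := exists_of_val_le_one v hC ht0 ht hx.le
  refine ⟨c, ?_, rfl⟩
  rw [mem_maximalIdeal, mem_nonunits_iff]
  rintro ⟨u, rfl⟩
  rw [val_unit_eq_one v hC u] at hx
  exact lt_irrefl _ hx

include hC in
/-- A uniformizer has the largest valuation `< 1`. -/
theorem val_le_val_irreducible {t : C} (ht0 : t ≠ 0)
    (ht : v (algebraMap C L t) < 1) {ϖ : C} (hϖ : Irreducible ϖ) {x : L} (hx : v x < 1) :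
    v x ≤ v (algebraMap C L ϖ) := by
  obtain ⟨c, hc, rfl⟩ := exists_mem_maximalIdeal_of_val_lt_one v hC ht0 ht hx
  rw [hϖ.maximalIdeal_eq, Ideal.mem_span_singleton'] at hc
  obtain ⟨z, rfl⟩ := hc
  rw [map_mul, map_mul]
  exact mul_le_of_le_one_left zero_le (hC z)

/-- Every nonzero element of `L` is a power of the uniformizer times a unit. -/
theorem exists_zpow_mul_unit {ϖ : C} (hϖ : Irreducible ϖ) {x : L} (hx : x ≠ 0) :
    ∃ (k : ℤ) (u : Cˣ), x = algebraMap C L ϖ ^ k * algebraMap C L u := by
  obtain ⟨a, b, hb, rfl⟩ := IsFractionRing.div_surjective (A := C) x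
  have hb0 : b ≠ 0 := nonZeroDivisors.ne_zero hb
  have ha0 : a ≠ 0 := by
    rintro rfl
    simp at hx
  obtain ⟨k₁, u₁, rfl⟩ := IsDiscreteValuationRing.eq_unit_mul_pow_irreducible ha0 hϖ
  obtain ⟨k₂, u₂, rfl⟩ := IsDiscreteValuationRing.eq_unit_mul_pow_irreducible hb0 hϖ
  refine ⟨(k₁ : ℤ) - k₂, u₁ * u₂⁻¹, ?_⟩
  have hu₂ : algebraMap C L (u₂ : C) * algebraMap C L ((u₂⁻¹ : Cˣ) : C) = 1 := by
    rw [← map_mul, Units.mul_inv, map_one]
  have hu₂0 : algebraMap C L (u₂ : C) ≠ 0 := left_ne_zero_of_mul_eq_one hu₂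
  have hϖ0 : algebraMap C L ϖ ≠ 0 := by
    rw [Ne, map_eq_zero_iff _ (IsFractionRing.injective C L)]
    exact hϖ.ne_zero
  rw [zpow_sub₀ hϖ0, zpow_natCast, zpow_natCast, Units.val_mul, map_mul, map_mul, map_mul,
    map_pow, map_pow]
  field_simp
  linear_combination (-1 : L) * hu₂

end DVR

section Field

/-! ### Finite fields: the exponents `M` with `x ^ M = x` identically -/

theorem card_le_of_forall_pow_eq (k : Type*) [Field k] [Finite k] {M : ℕ} (hM : 1 < M)
    (h : ∀ x : k, x ^ M = x) : Nat.card k ≤ M := by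
  classical
  letI : Fintype k := Fintype.ofFinite k
  have hne : (X ^ M - X : k[X]) ≠ 0 := FiniteField.X_pow_card_sub_X_ne_zero k hM
  have hsub : (Finset.univ : Finset k).val ⊆ (X ^ M - X : k[X]).roots := by
    intro x _
    rw [mem_roots hne, IsRoot.def, eval_sub, eval_pow, eval_X, h x, sub_self]
  have := card_le_degree_of_subset_roots hsub
  rw [FiniteField.X_pow_card_sub_X_natDegree_eq k hM, Finset.card_univ,
    ← Nat.card_eq_fintype_card] at this
  exact this

theorem pow_natCard_eq (k : Type*) [Field k] [Finite k] (x : k) : x ^ Nat.card k = x := by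
  letI : Fintype k := Fintype.ofFinite k
  rw [Nat.card_eq_fintype_card]
  exact FiniteField.pow_card x

end Field

section Count

/-! ### `e * g = n` -/

variable (B L C N : Type) [CommRing B] [IsDomain B] [IsDiscreteValuationRing B]
  [Finite (ResidueField B)]
  [Field L] [Algebra B L] [IsFractionRing B L]
  [CommRing C] [IsDomain C] [IsDiscreteValuationRing C] [Algebra B C]
  [IsLocalHom (algebraMap B C)] [Module.Finite B C] [Module.IsTorsionFree B C]
  [Field N] [Algebra C N] [IsFractionRing C N] [Algebra L N] [Algebra B N]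
  [IsScalarTower B L N] [IsScalarTower B C N]

/-- If `𝔪_B C = 𝔪_C ^ e` and `#k_C = #k_B ^ g` then `e * g = [N : L]`. -/
theorem ramification_mul_inertia (e g : ℕ)
    (he : (maximalIdeal B).map (algebraMap B C) = maximalIdeal C ^ e)
    (hg : Nat.card (ResidueField C) = Nat.card (ResidueField B) ^ g) :
    e * g = finrank L N := by
  have hQ : 1 < Nat.card (ResidueField B) := Finite.one_lt_card
  have h1 := Fermat.Agent.S55.Local.H664.card_quot_map B L C N
  have hne : maximalIdeal C ≠ ⊥ := IsDiscreteValuationRing.not_a_field C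
  have h2 : Submodule.cardQuot (maximalIdeal C ^ e) = Submodule.cardQuot (maximalIdeal C) ^ e :=
    cardQuot_pow_of_prime hne
  rw [Submodule.cardQuot_apply, Submodule.cardQuot_apply] at h2
  rw [he] at h1
  have h3 : Nat.card (C ⧸ maximalIdeal C) = Nat.card (ResidueField C) := rfl
  rw [h3, hg, ← pow_mul] at h2
  have h4 : Nat.card (ResidueField B) ^ (g * e) = Nat.card (ResidueField B) ^ finrank L N :=
    h2.symm.trans h1
  have := Nat.pow_right_injective hQ h4
  rw [mul_comm]
  exact this

end Count

end Fermat.Agent.S55.G.Rec.L2H664
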